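import Fermat.Agent.SmallZeros.Legendre

/-!
# `X² - D Y² = a W²` with `W` prime to `D`

Legendre's theorem gives one solution. With local solutions `r² - D t² ≡ a` modulo high powers of
the primes of `D` and `η = r + t √D`, `η₀ = X₀ + Y₀ √D`, the solution
`(η₀ + W₀ η)(a W₀ + η conj η₀)` is congruent to a multiple of `(r, t, 1)` there.
-/

set_option autoImplicit false

noncomputable section

namespace FA.GaussDuplication

theorem exists_squarefree_part {z : ℤ} (hz : z ≠ 0) :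
    ∃ z₁ s : ℤ, z = z₁ * s ^ 2 ∧ Squarefree z₁.natAbs := by
  obtain ⟨m, b, -, -, hn, hm⟩ := Nat.sq_mul_squarefree_of_pos (Int.natAbs_pos.2 hz)
  rcases Int.natAbs_eq z with h | h
  · exact ⟨m, b, by rw [h, ← hn]; push_cast; ring, by simpa using hm⟩
  · exact ⟨-m, b, by rw [h, ← hn]; push_cast; ring, by simpa using hm⟩

theorem isSquare_cast_of_dvd {d : ℕ} {r e : ℤ} (h : (d : ℤ) ∣ r ^ 2 - e) :
    IsSquare (e : ZMod d) := by
  refine ⟨r, ?_⟩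
  rw [← sub_eq_zero, ← Int.cast_mul, ← Int.cast_sub, ZMod.intCast_zmod_eq_zero_iff_dvd,
    ← dvd_neg, neg_sub, ← sq]
  exact h

theorem eq_zero_of_sq_eq {D X Y : ℤ} (hD : ¬IsSquare D) (h : X ^ 2 = D * Y ^ 2) : Y = 0 := by
  by_contra hY
  obtain ⟨t, rfl⟩ : Y ∣ X := (Int.pow_dvd_pow_iff two_ne_zero).1 ⟨D, by rw [h, mul_comm]⟩
  rw [mul_pow, mul_comm] at h
  exact hD ⟨t, by rw [← sq]; exact (mul_right_cancel₀ (pow_ne_zero 2 hY) h).symm⟩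

/-- One solution, by Legendre's theorem. -/
theorem exists_solution {D a : ℤ} (hD : ¬IsSquare D) (hpos : 0 < D ∨ 0 < a)
    (hcop : IsCoprime a D) (ha0 : a ≠ 0) (h1 : ∃ r, a ∣ r ^ 2 - D) (h2 : ∃ r, D ∣ r ^ 2 - a) :
    ∃ X Y W : ℤ, X ^ 2 - D * Y ^ 2 = a * W ^ 2 ∧ W ≠ 0 := by
  have hD0 : D ≠ 0 := fun h => hD (h ▸ ⟨0, (mul_zero 0).symm⟩)
  obtain ⟨D₁, s, hs, hsD⟩ := exists_squarefree_part hD0
  obtain ⟨a₁, t, ht, hta⟩ := exists_squarefree_part ha0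
  have hs0 : s ≠ 0 := fun h => hD0 (by rw [hs, h]; ring)
  have ht0 : t ≠ 0 := fun h => ha0 (by rw [ht, h]; ring)
  have hD1 : D₁ ≠ 0 := fun h => hD0 (by rw [hs, h]; ring)
  have ha1 : a₁ ≠ 0 := fun h => ha0 (by rw [ht, h]; ring)
  have hc1 : IsCoprime a₁ D₁ := by
    rw [hs, ht] at hcop
    exact hcop.of_mul_left_left.of_mul_right_left
  obtain ⟨r₁, hr₁⟩ := h1
  obtain ⟨r₂, hr₂⟩ := h2
  obtain ⟨u, v, hu⟩ : IsCoprime t D₁ := by
    rw [hs, ht, sq, ← mul_assoc] at hcop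
    exact hcop.of_mul_left_right.of_mul_right_left
  obtain ⟨w, w', hw⟩ : IsCoprime s a₁ := by
    rw [hs, ht, sq s, ← mul_assoc] at hcop
    exact hcop.of_mul_left_left.of_mul_right_right.symm
  obtain ⟨ra, hra⟩ : ∃ r, D₁ ∣ r ^ 2 - a₁ := ⟨r₂ * u, by
    obtain ⟨c, hc⟩ : D₁ ∣ r₂ ^ 2 - a := (Dvd.intro _ hs.symm).trans hr₂
    exact ⟨c * u ^ 2 - a₁ * v * (u * t + 1), by
      linear_combination u ^ 2 * hc + a₁ * (u * t + 1) * hu + u ^ 2 * ht⟩⟩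
  obtain ⟨rD, hrD⟩ : ∃ r, a₁ ∣ r ^ 2 - D₁ := ⟨r₁ * w, by
    obtain ⟨c, hc⟩ : a₁ ∣ r₁ ^ 2 - D := (Dvd.intro _ ht.symm).trans hr₁
    exact ⟨c * w ^ 2 - D₁ * w' * (w * s + 1), by
      linear_combination w ^ 2 * hc + D₁ * (w * s + 1) * hw + w ^ 2 * hs⟩⟩
  have hcopN : a₁.natAbs.Coprime D₁.natAbs := Int.isCoprime_iff_nat_coprime.1 hc1
  have hD1pos : 0 < D₁.natAbs := Int.natAbs_pos.2 hD1
  have ha1pos : 0 < a₁.natAbs := Int.natAbs_pos.2 ha1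
  have one : ∀ e : ℤ, IsSquare (e : ZMod 1) := fun e => ⟨0, Subsingleton.elim _ _⟩
  suffices h : ∃ X Y Z : ℤ, X ^ 2 - D₁ * Y ^ 2 = a₁ * Z ^ 2 ∧ (X ≠ 0 ∨ Y ≠ 0 ∨ Z ≠ 0) by
    obtain ⟨X, Y, Z, h, hne⟩ := h
    have hZ : Z ≠ 0 := by
      rintro rfl
      have e : X ^ 2 = D₁ * Y ^ 2 := by linarith
      have hns : ¬IsSquare D₁ := fun ⟨q, hq⟩ => hD ⟨q * s, by rw [hs, hq]; ring⟩
      obtain rfl := eq_zero_of_sq_eq hns e
      have : X = 0 := by simpa using e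
      simp [this] at hne
    refine ⟨X * s * t, Y * t, Z * s, ?_, mul_ne_zero hZ hs0⟩
    rw [hs, ht]
    linear_combination (s * t) ^ 2 * h
  rcases lt_or_gt_of_ne hD1 with hneg | hDpos
  · have hap : 0 < a₁ := by
      by_contra hle
      have h0 : D < 0 := hs ▸ mul_neg_of_neg_of_pos hneg (by positivity)
      have : a < 0 := ht ▸ mul_neg_of_neg_of_pos
        (lt_of_le_of_ne (not_lt.1 hle) ha1) (by positivity)
      omega
    obtain ⟨A, hA⟩ : ∃ A : ℕ, a₁ = A := ⟨a₁.natAbs, by omega⟩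
    obtain ⟨d, hd⟩ : ∃ d : ℕ, D₁ = -(d : ℤ) := ⟨D₁.natAbs, by omega⟩
    subst hA hd
    simp only [Int.natAbs_natCast, Int.natAbs_neg, neg_dvd] at *
    obtain ⟨X, Y, Z, h, hne⟩ := FA.SmallZeros.legendre_sufficient (a := 1) (b := d) (c := A)
      one_pos hD1pos ha1pos squarefree_one hsD hta (Nat.coprime_one_left d)
      (Nat.coprime_one_left A) hcopN.symm (one _) (by simpa using isSquare_cast_of_dvd hra)
      (by simpa using isSquare_cast_of_dvd hrD)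
    exact ⟨X, Y, Z, by linear_combination h, hne⟩
  obtain ⟨d, hd⟩ : ∃ d : ℕ, D₁ = d := ⟨D₁.natAbs, by omega⟩
  subst hd
  simp only [Int.natAbs_natCast] at *
  rcases lt_or_gt_of_ne ha1 with han | hap
  · obtain ⟨A, hA⟩ : ∃ A : ℕ, a₁ = -(A : ℤ) := ⟨a₁.natAbs, by omega⟩
    subst hA
    simp only [Int.natAbs_natCast, Int.natAbs_neg, neg_dvd] at *
    obtain ⟨X, Z, Y, h, hne⟩ := FA.SmallZeros.legendre_sufficient (a := 1) (b := A) (c := d)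
      one_pos ha1pos hD1pos squarefree_one hta hsD (Nat.coprime_one_left A)
      (Nat.coprime_one_left d) hcopN (one _) (by simpa using isSquare_cast_of_dvd hrD)
      (by simpa using isSquare_cast_of_dvd hra)
    exact ⟨X, Y, Z, by linear_combination h, by tauto⟩
  · obtain ⟨A, hA⟩ : ∃ A : ℕ, a₁ = A := ⟨a₁.natAbs, by omega⟩
    subst hA
    simp only [Int.natAbs_natCast] at *
    obtain ⟨Y, Z, X, h, hne⟩ := FA.SmallZeros.legendre_sufficient (a := d) (b := A) (c := 1)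
      hD1pos ha1pos one_pos hsD hta squarefree_one hcopN.symm (Nat.coprime_one_right d)
      (Nat.coprime_one_right A) (by simpa using isSquare_cast_of_dvd hra)
      (by simpa using isSquare_cast_of_dvd hrD) (one _)
    exact ⟨X, Y, Z, by linear_combination -h, by tauto⟩

theorem exists_sq_congr_odd {l : ℕ} (hl : l.Prime) (h2 : l ≠ 2) {a : ℤ} (ha : ¬(l : ℤ) ∣ a)
    (h : ∃ r, (l : ℤ) ∣ r ^ 2 - a) (K : ℕ) : ∃ r, (l : ℤ) ^ (K + 1) ∣ r ^ 2 - a := by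
  induction K with
  | zero => simpa using h
  | succ K ih =>
    obtain ⟨r, m, hm⟩ := ih
    have hli := Nat.prime_iff_prime_int.1 hl
    have hr : ¬(l : ℤ) ∣ 2 * r := fun hd => by
      rcases hli.dvd_or_dvd hd with hd | hd
      · have := Nat.le_of_dvd two_pos (Int.natCast_dvd_natCast.1 (by simpa using hd))
        have := hl.two_le
        omega
      · refine ha ((dvd_sub_right (dvd_pow hd two_ne_zero)).1 ?_)
        exact (dvd_pow_self _ (Nat.succ_ne_zero K)).trans ⟨m, hm⟩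
    obtain ⟨u, v, huv⟩ := (hli.coprime_iff_not_dvd.2 hr).symm
    refine ⟨r + (l : ℤ) ^ (K + 1) * (-m * u), m * v + (l : ℤ) ^ K * (m * u) ^ 2, ?_⟩
    linear_combination hm - (l : ℤ) ^ (K + 1) * m * huv

theorem exists_sq_congr_two {a : ℤ} (ha : (8 : ℤ) ∣ a - 1) (K : ℕ) :
    ∃ r, (2 : ℤ) ^ (K + 3) ∣ r ^ 2 - a ∧ ¬(2 : ℤ) ∣ r := by
  induction K with
  | zero =>
    obtain ⟨c, hc⟩ := ha
    exact ⟨1, ⟨-c, by rw [zero_add]; linarith⟩, by norm_num⟩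
  | succ K ih =>
    obtain ⟨r, ⟨m, hm⟩, hr⟩ := ih
    obtain ⟨e, he⟩ : ∃ e, r = 2 * e + 1 := ⟨r / 2, by omega⟩
    refine ⟨r + 2 ^ (K + 2) * m, ⟨m * (e + 1) + 2 ^ K * m ^ 2, ?_⟩, fun h => hr ?_⟩
    · linear_combination hm + 2 ^ (K + 3) * m * he
    · exact (Int.dvd_add_left ((dvd_pow_self 2 (Nat.succ_ne_zero (K + 1))).mul_right m)).1 h

/-- The local solutions. -/
theorem exists_norm_congr {D a : ℤ} (hD4 : D % 4 = 0 ∨ D % 4 = 1) (hcop : IsCoprime a D)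
    (h2 : ∃ r, D ∣ r ^ 2 - a) {l : ℕ} (hl : l.Prime) (hlD : (l : ℤ) ∣ D) (K : ℕ) :
    ∃ r t, (l : ℤ) ^ K ∣ r ^ 2 - D * t ^ 2 - a := by
  have hla : ¬(l : ℤ) ∣ a := fun h =>
    (Nat.prime_iff_prime_int.1 hl).not_isUnit (hcop.isUnit_of_dvd' h hlD)
  obtain ⟨r₀, hr₀⟩ := h2
  rcases eq_or_ne l 2 with rfl | hne
  · push_cast at hlD hla ⊢
    have hodd : ¬(2 : ℤ) ∣ r₀ := fun h =>
      hla ((dvd_sub_right (dvd_pow h two_ne_zero)).1 (hlD.trans hr₀))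
    obtain ⟨e, he⟩ : ∃ e, r₀ = 2 * e + 1 := ⟨r₀ / 2, by omega⟩
    obtain ⟨g, hg⟩ : (2 : ℤ) ∣ e * (e + 1) := Int.even_mul_succ_self e |>.two_dvd
    have hsq : r₀ ^ 2 = 8 * g + 1 := by rw [he]; linear_combination 4 * hg
    have h4 : (4 : ℤ) ∣ D := by omega
    obtain ⟨c, hc⟩ := hr₀
    obtain ⟨D', hD'⟩ := h4
    obtain ⟨t, ht⟩ : ∃ t : ℤ, (8 : ℤ) ∣ a + D * t ^ 2 - 1 := by
      rcases Int.even_or_odd c with ⟨j, hj⟩ | ⟨j, hj⟩
      · exact ⟨0, ⟨g - D' * j, by linear_combination -hc + hsq - c * hD' - 4 * D' * hj⟩⟩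
      · exact ⟨1, ⟨g - D' * j, by
          linear_combination -hc + hsq - c * hD' - 4 * D' * hj + hD'⟩⟩
    obtain ⟨r, hr, -⟩ := exists_sq_congr_two ht K
    exact ⟨r, t, by
      rw [show r ^ 2 - D * t ^ 2 - a = r ^ 2 - (a + D * t ^ 2) by ring]
      exact (pow_dvd_pow 2 (Nat.le_add_right K 3)).trans hr⟩
  · obtain ⟨r, hr⟩ := exists_sq_congr_odd hl hne hla ⟨r₀, hlD.trans hr₀⟩ K
    exact ⟨r, 0, by
      rw [zero_pow two_ne_zero, mul_zero, sub_zero]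
      exact (pow_dvd_pow _ (Nat.le_succ K)).trans hr⟩

theorem exists_crt (r : ℕ → ℤ) (K : ℕ) (S : Finset ℕ) (hS : ∀ l ∈ S, l.Prime) :
    ∃ x : ℤ, ∀ l ∈ S, (l : ℤ) ^ K ∣ x - r l := by
  classical
  induction S using Finset.induction with
  | empty => exact ⟨0, by simp⟩
  | @insert q T hq ih =>
    obtain ⟨x, hx⟩ := ih fun l hl => hS l (Finset.mem_insert_of_mem hl)
    obtain ⟨u, v, huv⟩ : IsCoprime ((q : ℤ) ^ K) (∏ l ∈ T, (l : ℤ) ^ K) :=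
      IsCoprime.prod_right fun l hl => (Nat.isCoprime_iff_coprime.2
        ((Nat.coprime_primes (hS q (Finset.mem_insert_self q T))
          (hS l (Finset.mem_insert_of_mem hl))).2 fun e => hq (e ▸ hl))).pow
    refine ⟨x + v * (∏ l ∈ T, (l : ℤ) ^ K) * (r q - x), fun l hl => ?_⟩
    rcases Finset.mem_insert.1 hl with rfl | hl
    · exact ⟨-u * (r l - x), by linear_combination (r l - x) * huv⟩
    · rw [add_sub_right_comm]
      exact (hx l hl).add (((Finset.dvd_prod_of_mem (fun l : ℕ => (l : ℤ) ^ K) hl).mul_left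
        v).mul_right _)

/-- **A solution prime to `D`.** -/
theorem exists_coprime_solution {D a : ℤ} (hD : ¬IsSquare D) (hD4 : D % 4 = 0 ∨ D % 4 = 1)
    (hpos : 0 < D ∨ 0 < a) (hcop : IsCoprime a D) (ha : a ≠ 0) (h1 : ∃ r, a ∣ r ^ 2 - D)
    (h2 : ∃ r, D ∣ r ^ 2 - a) :
    ∃ X Y W : ℤ, X ^ 2 - D * Y ^ 2 = a * W ^ 2 ∧ IsCoprime W D := by
  classical
  have hD0 : D ≠ 0 := fun h => hD (h ▸ ⟨0, (mul_zero 0).symm⟩)
  obtain ⟨X₀, Y₀, W₀, h₀, hW₀⟩ := exists_solution hD hpos hcop ha h1 h2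
  set S := D.natAbs.primeFactors
  set K := (4 * a * W₀ ^ 2).natAbs
  have hbig : ∀ l : ℕ, 2 ≤ l → ¬(l : ℤ) ^ K ∣ 4 * a * W₀ ^ 2 := fun l hl hd => by
    have h1 := Nat.le_of_dvd (Int.natAbs_pos.2 (mul_ne_zero (mul_ne_zero four_ne_zero ha)
      (pow_ne_zero 2 hW₀))) (Int.natCast_dvd.1 (by rwa [Nat.cast_pow]))
    exact absurd h1 (not_le.2 (Nat.lt_pow_self (by omega)))
  set M : ℤ → ℤ → ℤ := fun r t =>
    W₀ * (2 * a * W₀ + 2 * (r * X₀ - D * t * Y₀) + (r ^ 2 - D * t ^ 2 - a) * W₀) with hM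
  have hloc : ∀ l ∈ S, ∃ r t, (l : ℤ) ^ K ∣ r ^ 2 - D * t ^ 2 - a ∧ ¬(l : ℤ) ^ K ∣ M r t := by
    intro l hl
    have hp := Nat.prime_of_mem_primeFactors hl
    obtain ⟨r, t, hrt⟩ := exists_norm_congr hD4 hcop h2 hp
      (Int.natCast_dvd.2 (Nat.dvd_of_mem_primeFactors hl)) K
    by_cases h : (l : ℤ) ^ K ∣ M r t
    · refine ⟨-r, -t, by rwa [neg_sq, neg_sq], fun h' => hbig l hp.two_le ?_⟩
      rw [show 4 * a * W₀ ^ 2 = M r t + M (-r) (-t) -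
        (r ^ 2 - D * t ^ 2 - a) * (2 * W₀ ^ 2) by simp only [hM]; ring]
      exact (h.add h').sub (hrt.mul_right _)
    · exact ⟨r, t, hrt, h⟩
  choose! R T hR hnd using hloc
  obtain ⟨r, hr⟩ := exists_crt R K S fun l hl => Nat.prime_of_mem_primeFactors hl
  obtain ⟨t, ht⟩ := exists_crt T K S fun l hl => Nat.prime_of_mem_primeFactors hl
  set δ := r ^ 2 - D * t ^ 2 - a with hδ
  have hcong : ∀ l ∈ S, (l : ℤ) ^ K ∣ δ ∧ ¬(l : ℤ) ^ K ∣ M r t := fun l hl => by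
    have er := Int.modEq_iff_dvd.2 (hr l hl)
    have et := Int.modEq_iff_dvd.2 (ht l hl)
    have ed : R l ^ 2 - D * T l ^ 2 - a ≡ δ [ZMOD (l : ℤ) ^ K] :=
      ((er.pow 2).sub ((et.pow 2).mul_left D)).sub_right a
    refine ⟨(Int.ModEq.dvd_iff ed).1 (hR l hl), fun h => hnd l hl ?_⟩
    have eM : M (R l) (T l) ≡ M r t [ZMOD (l : ℤ) ^ K] := by
      simp only [hM]
      exact ((((er.mul_right X₀).sub ((et.mul_left D).mul_right Y₀)).mul_left 2).add_left _ |>.add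
        (ed.mul_right W₀)).mul_left W₀
    exact (Int.ModEq.dvd_iff eM).2 h
  set W := M r t
  set β₁ := a * W₀ + (r * X₀ - D * t * Y₀) with hβ₁
  set β₂ := t * X₀ - r * Y₀ with hβ₂
  set P₁ := X₀ + W₀ * r with hP₁
  set P₂ := Y₀ + W₀ * t with hP₂
  set X := P₁ * β₁ + D * P₂ * β₂ with hX
  set Y := P₁ * β₂ + P₂ * β₁ with hY
  have eX : X = W * r - δ * W₀ * P₁ := by
    simp only [hX, hP₁, hP₂, hβ₁, hβ₂, hδ, W, hM]
    linear_combination r * h₀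
  have eY : Y = W * t - δ * W₀ * P₂ := by
    simp only [hY, hP₁, hP₂, hβ₁, hβ₂, hδ, W, hM]
    linear_combination t * h₀
  have eN : X ^ 2 - D * Y ^ 2 = a * W ^ 2 := by
    have n1 : P₁ ^ 2 - D * P₂ ^ 2 = W := by
      simp only [hP₁, hP₂, W, hM]
      linear_combination h₀
    have n2 : β₁ ^ 2 - D * β₂ ^ 2 = a * W := by
      simp only [hβ₁, hβ₂, W, hM]
      linear_combination (r ^ 2 - D * t ^ 2) * h₀
    rw [show X ^ 2 - D * Y ^ 2 = (P₁ ^ 2 - D * P₂ ^ 2) * (β₁ ^ 2 - D * β₂ ^ 2) by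
      simp only [hX, hY]; ring, n1, n2]
    ring
  have hDabs : D.natAbs ≠ 1 := fun h => by
    rcases Int.natAbs_eq D with e | e <;> rw [h] at e
    · exact hD ⟨1, by rw [e]; norm_num⟩
    · omega
  obtain ⟨q, hqp, hqd⟩ := Nat.exists_prime_and_dvd hDabs
  have hW : W ≠ 0 := fun h => (hcong q (Nat.mem_primeFactors.2 ⟨hqp, hqd, Int.natAbs_ne_zero.2
    hD0⟩)).2 (h ▸ dvd_zero _)
  set g : ℕ := Int.gcd (Int.gcd X Y) W
  obtain ⟨X', hX'⟩ : (g : ℤ) ∣ X := (Int.gcd_dvd_left _ _).trans (Int.gcd_dvd_left _ _)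
  obtain ⟨Y', hY'⟩ : (g : ℤ) ∣ Y := (Int.gcd_dvd_left _ _).trans (Int.gcd_dvd_right _ _)
  obtain ⟨W', hW'⟩ : (g : ℤ) ∣ W := Int.gcd_dvd_right _ _
  have hg : (g : ℤ) ≠ 0 := fun h => hW (by rw [hW', h, zero_mul])
  refine ⟨X', Y', W', mul_left_cancel₀ (pow_ne_zero 2 hg) ?_, ?_⟩
  · rw [hX', hY', hW'] at eN
    linear_combination eN
  rw [Int.isCoprime_iff_nat_coprime]
  refine Nat.coprime_of_dvd fun l hl hlW hlD => ?_
  rw [← Int.natCast_dvd] at hlW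
  obtain ⟨hdδ, hdW⟩ := hcong l (Nat.mem_primeFactors.2 ⟨hl, hlD, Int.natAbs_ne_zero.2 hD0⟩)
  obtain ⟨i, g₁, hg₁, hgi⟩ := Nat.exists_eq_pow_mul_and_not_dvd
    (fun h => hg (by rw [h, Nat.cast_zero]) : g ≠ 0) l hl.ne_one
  have hiK : i < K := by
    by_contra hle
    refine hdW ((pow_dvd_pow _ (not_lt.1 hle)).trans ?_)
    exact Dvd.intro (g₁ * W') (by rw [hW', hgi]; push_cast; ring)
  have hli := Nat.prime_iff_prime_int.1 hl
  have key : ∀ Z Z' e P : ℤ, Z = (g : ℤ) * Z' → Z = W * e - δ * W₀ * P → (l : ℤ) ∣ Z' := by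
    intro Z Z' e P h1 h2
    have hd : (l : ℤ) ^ (i + 1) ∣ Z := by
      rw [h2]
      refine dvd_sub (Dvd.dvd.mul_right ?_ e)
        ((((pow_dvd_pow _ hiK).trans hdδ).mul_right W₀).mul_right P)
      rw [hW', hgi, pow_succ]
      push_cast
      exact mul_dvd_mul (dvd_mul_right _ _) hlW
    rw [h1, hgi, pow_succ] at hd
    push_cast at hd
    rw [mul_assoc, mul_dvd_mul_iff_left (pow_ne_zero _ (by exact_mod_cast hl.ne_zero))] at hd
    exact (hli.dvd_or_dvd hd).resolve_left fun h => hg₁ (Int.natCast_dvd_natCast.1 h)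
  have hall : (g * l : ℤ) ∣ Int.gcd (Int.gcd X Y) W := by
    refine Int.dvd_coe_gcd (Int.dvd_coe_gcd ?_ ?_) ?_
    · rw [hX']
      exact mul_dvd_mul_left _ (key X X' r P₁ hX' eX)
    · rw [hY']
      exact mul_dvd_mul_left _ (key Y Y' t P₂ hY' eY)
    · rw [hW']
      exact mul_dvd_mul_left _ hlW
  have h1 : (g : ℤ) * l ∣ (g : ℤ) * 1 := by rwa [mul_one]
  exact hli.not_dvd_one ((mul_dvd_mul_iff_left hg).1 h1)

end FA.GaussDuplication
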