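import Fermat.Agent.GaussComposition.Group
import Fermat.Agent.GaussDuplication.Ternary

/-!
# Squares in the group of classes of forms

A form representing a square prime to `D` is equivalent to `(z², B, C)`, the square of
`(z, B, z C)`; a form with a value `≡ 1 (mod D)` represents such a square by the ternary result.
-/

set_option autoImplicit false

noncomputable section

namespace FA.GaussDuplication

open FA.GaussComposition

variable {D : ℤ}

/-- `f` and `g` take values prime to `D` which agree modulo `D`. -/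
def SameGenus (f g : Form D) : Prop :=
  ∃ x y u v : ℤ, IsCoprime (f.eval x y) D ∧ f.eval x y ≡ g.eval u v [ZMOD D]

theorem isCoprime_of_modEq {a b : ℤ} (h : a ≡ b [ZMOD D]) (ha : IsCoprime a D) :
    IsCoprime b D := by
  obtain ⟨c, hc⟩ := Int.modEq_iff_dvd.1 h
  rw [show b = a + D * c by linarith]
  exact ha.add_mul_left_left c

/-- A unit square value can be scaled to `1`. -/
theorem exists_value_one (f : Form D) {x y m : ℤ} (h : f.eval x y ≡ m ^ 2 [ZMOD D])
    (hm : IsCoprime m D) : ∃ x y : ℤ, f.eval x y ≡ 1 [ZMOD D] := by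
  obtain ⟨u, v, huv⟩ := hm
  refine ⟨u * x, u * y, ?_⟩
  rw [show f.eval (u * x) (u * y) = u ^ 2 * f.eval x y by simp only [Form.eval]; ring]
  refine (h.mul_left _).trans ?_
  rw [Int.modEq_iff_dvd]
  exact ⟨v * (u * m + 1), by linear_combination (-(u * m + 1)) * huv⟩

variable (hD : ¬IsSquare D)
include hD

omit hD in
theorem disc_mod_four (f : Form D) : D % 4 = 0 ∨ D % 4 = 1 := by
  have h := f.disc
  obtain ⟨k, hk⟩ | ⟨k, hk⟩ := Int.even_or_odd f.b
  · left
    have : D = 4 * (k ^ 2 - f.a * f.c) := by rw [hk] at h; linear_combination -h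
    omega
  · right
    have : D = 4 * (k ^ 2 + k - f.a * f.c) + 1 := by rw [hk] at h; linear_combination -h
    omega

/-- A form representing a square prime to `D` is a square. -/
theorem exists_sqrt {μ : FormClass D → FormClass D → FormClass D} (hμ : IsComposition μ)
    (f : Form D) {x y z : ℤ} (hz0 : z ≠ 0) (hz : IsCoprime z D) (h : f.eval x y = z ^ 2) :
    ∃ g : Form D, μ g.cl g.cl = f.cl := by
  obtain ⟨g, x', y', hg, hxy, rfl, rfl⟩ :=
    Int.exists_gcd_one' (show 0 < Int.gcd x y from Int.gcd_pos_iff.2 (not_and_or.1 fun h0 => hz0 (by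
      rw [h0.1, h0.2] at h
      simpa [Form.eval] using h.symm)))
  have hval : f.eval x' y' * (g : ℤ) ^ 2 = z ^ 2 := by
    rw [← h]
    simp only [Form.eval]
    ring
  obtain ⟨z', rfl⟩ : (g : ℤ) ∣ z :=
    (Int.pow_dvd_pow_iff two_ne_zero).1 ⟨f.eval x' y', by rw [← hval]; ring⟩
  have hz' : f.eval x' y' = |z'| ^ 2 := by
    rw [sq_abs]
    exact mul_right_cancel₀ (pow_ne_zero 2 (Int.natCast_ne_zero.2 hg.ne'))
      (hval.trans (by ring))
  obtain ⟨p, q, hpq⟩ := Int.isCoprime_iff_gcd_eq_one.2 hxy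
  obtain ⟨f', hf, hfa, -⟩ :=
    f.exists_transform hD (p := x') (q := -q) (r := y') (s := p) (by linear_combination hpq)
  set w := |z'| with hw
  have hw0 : 0 < w := abs_pos.2 (right_ne_zero_of_mul hz0)
  have hwD : IsCoprime w D := by
    rw [hw]
    exact hz.of_mul_left_right.abs_left
  rw [hz'] at hfa
  have hwb : IsCoprime w f'.b := by
    have e : f'.b ^ 2 = D + w * (4 * w * f'.c) := by
      have hd := f'.disc
      rw [hfa] at hd
      linear_combination hd
    refine (IsCoprime.pow_right_iff two_pos).1 ?_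
    rw [e]
    exact hwD.add_mul_left_right _
  obtain ⟨s, t, hst⟩ := id hwb
  let k : Form D := ⟨w, f'.b, w * f'.c, by
      have hd := f'.disc
      rw [hfa] at hd
      linear_combination hd,
    fun l hl h1 h2 _ => (Nat.prime_iff_prime_int.1 hl).not_isUnit (hwb.isUnit_of_dvd' h1 h2),
    fun _ => hw0⟩
  refine ⟨k, ?_⟩
  rw [show f.cl = f'.cl from Quot.sound hf]
  exact hμ k k f' w w f'.b f'.c rfl rfl rfl rfl rfl rfl (hfa.trans (sq w)) rfl rfl
    ⟨s, 0, t, by rw [zero_mul, add_zero, hst]⟩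

/-- A form with a value `≡ 1 (mod D)` represents a square prime to `D`. -/
theorem represents_coprime_sq (f : Form D) (h : ∃ x y : ℤ, f.eval x y ≡ 1 [ZMOD D]) :
    ∃ x y z : ℤ, z ≠ 0 ∧ IsCoprime z D ∧ f.eval x y = z ^ 2 := by
  obtain ⟨x, y, hv⟩ := h
  have hcopv : IsCoprime (f.eval x y) D := isCoprime_of_modEq hv.symm isCoprime_one_left
  have hD4 := disc_mod_four f
  have hxy : 0 < Int.gcd x y := by
    refine Int.gcd_pos_iff.2 (not_and_or.1 fun h0 => ?_)
    rw [h0.1, h0.2, show f.eval 0 0 = 0 by simp [Form.eval], isCoprime_zero_left,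
      Int.isUnit_iff] at hcopv
    rcases hcopv with e | e
    · exact hD ⟨1, by rw [e]; norm_num⟩
    · omega
  obtain ⟨g, x', y', -, hcop', rfl, rfl⟩ := Int.exists_gcd_one' hxy
  have hval : f.eval (x' * g) (y' * g) = f.eval x' y' * (g : ℤ) ^ 2 := by
    simp only [Form.eval]
    ring
  rw [hval] at hv hcopv
  obtain ⟨p, q, hpq⟩ := Int.isCoprime_iff_gcd_eq_one.2 hcop'
  obtain ⟨f', hf, hfa, -⟩ :=
    f.exists_transform hD (p := x') (q := -q) (r := y') (s := p) (by linear_combination hpq)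
  rw [← hfa] at hv hcopv
  have haD : IsCoprime f'.a D := hcopv.of_mul_left_left
  obtain ⟨u, v, huv⟩ : IsCoprime (g : ℤ) D :=
    (IsCoprime.pow_left_iff two_pos).1 hcopv.of_mul_left_right
  obtain ⟨c, hc⟩ := Int.modEq_iff_dvd.1 hv
  obtain ⟨X, Y, W, hXY, hWD⟩ := exists_coprime_solution hD hD4
    (by
      rcases lt_or_ge D 0 with hneg | hge
      · exact Or.inr (f'.pos hneg)
      · exact Or.inl (lt_of_le_of_ne hge fun e => hD (e ▸ ⟨0, (mul_zero 0).symm⟩)))
    haD (f'.a_ne_zero hD)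
    ⟨f'.b, ⟨4 * f'.c, by linear_combination f'.disc⟩⟩
    ⟨u, c * u ^ 2 - f'.a * v * (u * g + 1), by
      linear_combination u ^ 2 * hc + f'.a * (u * g + 1) * huv⟩
  have hf' : f'.eval (X - f'.b * Y) (2 * f'.a * Y) = (f'.a * W) ^ 2 := by
    simp only [Form.eval]
    linear_combination f'.a * hXY - f'.a * Y ^ 2 * f'.disc
  obtain ⟨x₁, y₁, e⟩ := (hf.represents_iff _).1 ⟨_, _, hf'⟩
  refine ⟨x₁, y₁, f'.a * W, mul_ne_zero (f'.a_ne_zero hD) fun hW => ?_, haD.mul_left hWD, e⟩
  rw [hW, isCoprime_zero_left, Int.isUnit_iff] at hWD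
  rcases hWD with e | e
  · exact hD ⟨1, by rw [e]; norm_num⟩
  · omega

section Group

variable {μ : FormClass D → FormClass D → FormClass D} (hμ : IsComposition μ)
include hμ

theorem exists_commGroup (f : Form D) : ∃ _ : CommGroup (FormClass D), μ = (fun x y => x * y) ∧
    (∀ e : Form D, e.a = 1 → e.cl = 1) ∧
    (∀ f g : Form D, g.a = f.a → g.b = -f.b → g.c = f.c → g.cl = f.cl⁻¹) ∧
    ∀ (f g h : Form D) (m n : ℤ), h.cl = f.cl * g.cl → f.Represents m → g.Represents n →
      h.Represents (m * n) := by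
  obtain ⟨G, h1, hinv, hc, hrep⟩ := exists_group hD (disc_mod_four f)
  exact ⟨G, composition_unique hD hμ hc, h1, hinv, hrep⟩

/-- **Gauss's duplication theorem.** -/
theorem duplication (f : Form D) :
    (∃ g : Form D, μ g.cl g.cl = f.cl) ↔ ∃ x y : ℤ, f.eval x y ≡ 1 [ZMOD D] := by
  refine ⟨fun ⟨g, hg⟩ => ?_, fun h => ?_⟩
  · obtain ⟨G, rfl, -, -, hrep⟩ := exists_commGroup hD hμ f
    have hD0 : D ≠ 0 := fun h => hD (h ▸ ⟨0, (mul_zero 0).symm⟩)
    obtain ⟨x, y, -, hcop⟩ := g.exists_coprime_value hD0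
    obtain ⟨x', y', e⟩ := hrep g g f _ _ hg.symm ⟨x, y, rfl⟩ ⟨x, y, rfl⟩
    exact exists_value_one f (by rw [e, sq]) hcop
  · obtain ⟨x, y, z, hz0, hz, e⟩ := represents_coprime_sq hD f h
    exact exists_sqrt hD hμ f hz0 hz e

/-- **Two forms have values in common modulo `D` exactly when they differ by a square.** -/
theorem sameGenus_iff (f g : Form D) :
    SameGenus f g ↔ ∃ k : Form D, μ f.cl (μ k.cl k.cl) = g.cl := by
  obtain ⟨G, hG, -, hinv, hrep⟩ := exists_commGroup hD hμ f
  subst hG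
  have hD0 : D ≠ 0 := fun h => hD (h ▸ ⟨0, (mul_zero 0).symm⟩)
  constructor
  · rintro ⟨x, y, u, v, hcop, hmod⟩
    obtain ⟨d, hd⟩ := Quot.exists_rep (f.cl⁻¹ * g.cl)
    obtain ⟨x₁, y₁, e⟩ := hrep f.opp g d (f.eval x y) (g.eval u v)
      (by rw [hinv f f.opp rfl rfl rfl]; exact hd)
      ⟨x, -y, by simp only [Form.eval, Form.opp]; ring⟩ ⟨u, v, rfl⟩
    obtain ⟨k, hk⟩ := (duplication hD hμ d).2 (exists_value_one d (m := f.eval x y) (by
      rw [e, sq]
      exact hmod.symm.mul_left _) hcop)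
    refine ⟨k, ?_⟩
    show f.cl * (k.cl * k.cl) = g.cl
    rw [show k.cl * k.cl = f.cl⁻¹ * g.cl from hk.trans hd, mul_inv_cancel_left]
  · rintro ⟨k, hk⟩
    obtain ⟨x, y, -, hf⟩ := f.exists_coprime_value hD0
    obtain ⟨s, t, -, hk'⟩ := k.exists_coprime_value hD0
    set n := k.eval s t
    obtain ⟨d, hd⟩ := Quot.exists_rep (k.cl * k.cl)
    have hdn : d.Represents (n * n) := hrep k k d n n hd ⟨s, t, rfl⟩ ⟨s, t, rfl⟩
    obtain ⟨u, v, e⟩ := hrep f d g (f.eval x y) (n * n)
      (by rw [show d.cl = k.cl * k.cl from hd]; exact hk.symm) ⟨x, y, rfl⟩ hdn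
    have e' : f.eval (n * x) (n * y) = g.eval u v := by
      rw [e]
      simp only [Form.eval]
      ring
    refine ⟨n * x, n * y, u, v, ?_, by rw [e']⟩
    rw [e', e]
    exact hf.mul_left (hk'.mul_left hk')

/-- In the language of the principal form. -/
theorem duplication_principal (e f : Form D) (he : e.a = 1) :
    (∃ g : Form D, μ g.cl g.cl = f.cl) ↔ SameGenus e f := by
  obtain ⟨G, hG, h1, -, -⟩ := exists_commGroup hD hμ f
  subst hG
  rw [sameGenus_iff hD hμ]
  simp only [h1 e he, one_mul]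

theorem sameGenus_equivalence : Equivalence (SameGenus (D := D)) where
  refl f := by
    obtain ⟨x, y, -, h⟩ :=
      f.exists_coprime_value (fun h => hD (h ▸ ⟨0, (mul_zero 0).symm⟩) : D ≠ 0)
    exact ⟨x, y, x, y, h, rfl⟩
  symm := fun ⟨x, y, u, v, h, e⟩ => ⟨u, v, x, y, isCoprime_of_modEq e h, e.symm⟩
  trans {f g k} h h' := by
    obtain ⟨G, hG, -, -, -⟩ := exists_commGroup hD hμ f
    subst hG
    obtain ⟨a, ha⟩ := (sameGenus_iff hD hμ f g).1 h
    obtain ⟨b, hb⟩ := (sameGenus_iff hD hμ g k).1 h'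
    obtain ⟨c, hc⟩ := Quot.exists_rep (a.cl * b.cl)
    refine (sameGenus_iff hD hμ f k).2 ⟨c, ?_⟩
    show f.cl * (c.cl * c.cl) = k.cl
    rw [← show g.cl * (b.cl * b.cl) = k.cl from hb, ← show f.cl * (a.cl * a.cl) = g.cl from ha,
      show c.cl = a.cl * b.cl from hc, mul_mul_mul_comm]
    simp only [mul_assoc]

/-- **The number of genera** is the number of classes of order at most two. -/
theorem card_genera (e : Form D) (he : e.a = 1) :
    Nat.card (Quot (SameGenus (D := D))) =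
      Nat.card {x : FormClass D // μ x x = e.cl} := by
  obtain ⟨G, hG, h1, -, -⟩ := exists_commGroup hD hμ e
  subst hG
  have := finite_formClass hD
  set S := (powMonoidHom 2 : FormClass D →* FormClass D).range
  let φ : Form D → FormClass D ⧸ S := fun f => (f.cl : FormClass D ⧸ S)
  have hφ : ∀ f g, φ f = φ g ↔ SameGenus f g := fun f g => by
    rw [sameGenus_iff hD hμ, QuotientGroup.eq]
    constructor
    · rintro ⟨x, hx⟩
      obtain ⟨k, rfl⟩ := Quot.exists_rep x
      refine ⟨k, ?_⟩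
      show f.cl * (k.cl * k.cl) = g.cl
      rw [← sq, show k.cl ^ 2 = f.cl⁻¹ * g.cl from hx, mul_inv_cancel_left]
    · rintro ⟨k, hk⟩
      exact ⟨k.cl, by
        rw [powMonoidHom_apply, ← show f.cl * (k.cl * k.cl) = g.cl from hk, inv_mul_cancel_left,
          sq]⟩
  have hbij : Function.Bijective
      (Quot.lift φ fun f g h => (hφ f g).2 h : Quot (SameGenus (D := D)) → FormClass D ⧸ S) := by
    refine ⟨fun a b hab => ?_, fun q => ?_⟩
    · obtain ⟨f, rfl⟩ := Quot.exists_rep a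
      obtain ⟨g, rfl⟩ := Quot.exists_rep b
      exact Quot.sound ((hφ f g).1 hab)
    · obtain ⟨x, rfl⟩ := QuotientGroup.mk_surjective q
      obtain ⟨f, rfl⟩ := Quot.exists_rep x
      exact ⟨Quot.mk _ f, rfl⟩
  rw [Nat.card_eq_of_bijective _ hbij, ← Subgroup.index]
  have hk := (powMonoidHom 2 : FormClass D →* FormClass D).ker.card_mul_index
  rw [Subgroup.index_ker] at hk
  have hr := S.card_mul_index
  have e2 : Nat.card (powMonoidHom 2 : FormClass D →* FormClass D).ker =
      Nat.card {x : FormClass D // (fun x y => x * y) x x = e.cl} :=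
    Nat.card_congr (Equiv.subtypeEquivRight fun x => by
      simp [MonoidHom.mem_ker, powMonoidHom_apply, sq, h1 e he])
  rw [← e2]
  exact Nat.eq_of_mul_eq_mul_left (Nat.card_pos (α := S)) (by rw [hr, ← hk, mul_comm])

end Group

end FA.GaussDuplication
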